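import Mathlib
import Fermat.Prelude.Def_ModularCurve_GenusNumerics

set_option autoImplicit false

/-!
# The coset space `SL(2, ℤ) / Γ₀(N)`: first columns and elliptic fixed points
-/

open CongruenceSubgroup Matrix.SpecialLinearGroup
open scoped MatrixGroups

namespace Fermat.Agent.Gamma0Comb

/-- The coset space `SL(2, ℤ) / Γ₀(N)`. -/
abbrev X (N : ℕ) : Type := SL(2, ℤ) ⧸ (Gamma0 N)

variable {N : ℕ}

theorem mk_eq_iff (g h : SL(2, ℤ)) :
    ((g : X N) = (h : X N)) ↔ (N : ℤ) ∣ g 0 0 * h 1 0 - g 1 0 * h 0 0 := by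
  rw [QuotientGroup.eq, Gamma0_mem]
  have h1 : (g⁻¹ * h) 1 0 = g 0 0 * h 1 0 - g 1 0 * h 0 0 := by
    simp [Matrix.SpecialLinearGroup.coe_mul, Matrix.SpecialLinearGroup.coe_inv,
      Matrix.adjugate_fin_two, Matrix.mul_apply, Fin.sum_univ_two]
    ring
  rw [h1, ZMod.intCast_zmod_eq_zero_iff_dvd]

theorem isCoprime_col (g : SL(2, ℤ)) : IsCoprime (g 0 0) (g 1 0) := by
  have := g.det_coe
  rw [Matrix.det_fin_two] at this
  exact ⟨g 1 1, -g 0 1, by linear_combination this⟩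

theorem S_mul_col (g : SL(2, ℤ)) :
    (ModularGroup.S * g) 0 0 = - g 1 0 ∧ (ModularGroup.S * g) 1 0 = g 0 0 := by
  constructor <;>
  simp [ModularGroup.coe_S, Matrix.SpecialLinearGroup.coe_mul, Matrix.mul_apply, Fin.sum_univ_two]

theorem T_mul_col (g : SL(2, ℤ)) :
    (ModularGroup.T * g) 0 0 = g 0 0 + g 1 0 ∧ (ModularGroup.T * g) 1 0 = g 1 0 := by
  constructor <;>
  simp [ModularGroup.coe_T, Matrix.SpecialLinearGroup.coe_mul, Matrix.mul_apply, Fin.sum_univ_two]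

theorem T_zpow_mul_col (n : ℤ) (g : SL(2, ℤ)) :
    (ModularGroup.T ^ n * g) 0 0 = g 0 0 + n * g 1 0 ∧
      (ModularGroup.T ^ n * g) 1 0 = g 1 0 := by
  constructor <;>
  simp [ModularGroup.coe_T_zpow, Matrix.SpecialLinearGroup.coe_mul, Matrix.mul_apply,
    Fin.sum_univ_two]

theorem ST_mul_col (g : SL(2, ℤ)) :
    (ModularGroup.S * ModularGroup.T * g) 0 0 = - g 1 0 ∧
      (ModularGroup.S * ModularGroup.T * g) 1 0 = g 0 0 + g 1 0 := by
  rw [mul_assoc, (S_mul_col _).1, (S_mul_col _).2, (T_mul_col g).1, (T_mul_col g).2]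
  exact ⟨rfl, rfl⟩

/-- A matrix with first column `(x, 1)`. -/
def colOne (x : ℤ) : SL(2, ℤ) := ModularGroup.T ^ x * ModularGroup.S

theorem colOne_col (x : ℤ) : colOne x 0 0 = x ∧ colOne x 1 0 = 1 := by
  have h := T_zpow_mul_col x ModularGroup.S
  have h1 : ModularGroup.S 0 0 = (0 : ℤ) := by simp [ModularGroup.S]
  have h2 : ModularGroup.S 1 0 = (1 : ℤ) := by simp [ModularGroup.S]
  rw [h1, h2] at h
  simpa [colOne] using h

/-- General count of fixed points: if `h` moves the first column `(a, c)` by an integral linear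
substitution with fixed locus given by the form `a² + t a c + c²`. -/
theorem natCard_fixed (N : ℕ) [NeZero N] (h : SL(2, ℤ)) (t : ℤ)
    (hfix : ∀ g : SL(2, ℤ), (h * g) 0 0 * g 1 0 - (h * g) 1 0 * g 0 0 =
      - (g 0 0 ^ 2 + t * (g 0 0 * g 1 0) + g 1 0 ^ 2)) :
    Nat.card {q : X N // h • q = q} = Nat.card {x : ZMod N // x ^ 2 + t * x + 1 = 0} := by
  have key : ∀ g : SL(2, ℤ), (h • (g : X N) = (g : X N)) ↔
      (N : ℤ) ∣ g 0 0 ^ 2 + t * (g 0 0 * g 1 0) + g 1 0 ^ 2 := by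
    intro g
    have h1 : h • (g : X N) = ((h * g : SL(2, ℤ)) : X N) := rfl
    rw [h1, mk_eq_iff, hfix, dvd_neg]
  have hmem : ∀ x : ZMod N, x ^ 2 + t * x + 1 = 0 →
      h • ((colOne x.val : SL(2, ℤ)) : X N) = ((colOne x.val : SL(2, ℤ)) : X N) := by
    intro x hx
    rw [key, (colOne_col _).1, (colOne_col _).2, ← ZMod.intCast_zmod_eq_zero_iff_dvd]
    push_cast
    rw [ZMod.natCast_val, ZMod.cast_id', id]
    rw [← hx]; ring
  symm
  refine Nat.card_congr (Equiv.ofBijective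
    (fun x => ⟨((colOne (x.1.val : ℤ) : SL(2, ℤ)) : X N), hmem x.1 x.2⟩) ⟨?_, ?_⟩)
  · rintro ⟨x, hx⟩ ⟨y, hy⟩ hxy
    have h1 := (mk_eq_iff _ _).mp (congrArg Subtype.val hxy)
    rw [(colOne_col _).1, (colOne_col _).2, (colOne_col _).1, (colOne_col _).2, mul_one, one_mul,
      ← ZMod.intCast_zmod_eq_zero_iff_dvd] at h1
    push_cast at h1
    rw [ZMod.natCast_val, ZMod.cast_id', id, ZMod.natCast_val, ZMod.cast_id', id] at h1
    exact Subtype.ext (sub_eq_zero.mp h1)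
  · rintro ⟨q, hq⟩
    obtain ⟨g, rfl⟩ := QuotientGroup.mk_surjective q
    have hd := (key g).mp hq
    -- `g 1 0` is invertible mod `N`
    have hcop : IsCoprime (g 1 0) (N : ℤ) := by
      rw [Int.isCoprime_iff_gcd_eq_one]
      by_contra hne
      obtain ⟨p, hp, hpd⟩ := Nat.exists_prime_and_dvd hne
      have hp1 : (p : ℤ) ∣ g 1 0 := (Int.natCast_dvd_natCast.mpr hpd).trans (Int.gcd_dvd_left _ _)
      have hp2 : (p : ℤ) ∣ N := (Int.natCast_dvd_natCast.mpr hpd).trans (Int.gcd_dvd_right _ _)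
      have hp3 : (p : ℤ) ∣ g 0 0 ^ 2 := by
        have h4 := hp2.trans hd
        have h5 : (p : ℤ) ∣ t * (g 0 0 * g 1 0) + g 1 0 ^ 2 :=
          dvd_add (Dvd.dvd.mul_left (Dvd.dvd.mul_left hp1 _) _) (Dvd.dvd.pow hp1 two_ne_zero)
        have h6 := dvd_sub h4 h5
        have h7 : g 0 0 ^ 2 + t * (g 0 0 * g 1 0) + g 1 0 ^ 2 -
          (t * (g 0 0 * g 1 0) + g 1 0 ^ 2) = g 0 0 ^ 2 := by ring
        rwa [h7] at h6
      have hp4 : (p : ℤ) ∣ g 0 0 := (Nat.prime_iff_prime_int.mp hp).dvd_of_dvd_pow hp3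
      have hu := (isCoprime_col g).isUnit_of_dvd' hp4 hp1
      exact hp.one_lt.ne' (by simpa using Int.isUnit_iff_natAbs_eq.mp hu)
    obtain ⟨u, v, huv⟩ := hcop
    have hval : (((((g 0 0 * u : ℤ) : ZMod N).val : ℕ) : ℤ) : ZMod N) = ((g 0 0 * u : ℤ) : ZMod N) := by
      push_cast
      rw [ZMod.natCast_val, ZMod.cast_id', id]
    refine ⟨⟨((g 0 0 * u : ℤ) : ZMod N), ?_⟩, ?_⟩
    · have h1 : ((g 0 0 * u : ℤ) : ZMod N) ^ 2 + t * ((g 0 0 * u : ℤ) : ZMod N) + 1 =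
          (((g 0 0 * u) ^ 2 + t * (g 0 0 * u) + 1 : ℤ) : ZMod N) := by push_cast; ring
      rw [h1, ZMod.intCast_zmod_eq_zero_iff_dvd]
      obtain ⟨w, hw⟩ := hd
      refine ⟨u ^ 2 * w + t * g 0 0 * u * v + v * (1 + u * g 1 0), ?_⟩
      linear_combination u ^ 2 * hw - (t * g 0 0 * u + 1 + u * g 1 0) * huv
    · apply Subtype.ext
      change ((colOne _ : SL(2, ℤ)) : X N) = (g : X N)
      rw [mk_eq_iff, (colOne_col _).1, (colOne_col _).2, ← ZMod.intCast_zmod_eq_zero_iff_dvd]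
      rw [Int.cast_sub, Int.cast_mul, hval]
      have h1 : ((g 0 0 * u : ℤ) : ZMod N) * (g 1 0 : ZMod N) - ((1 * g 0 0 : ℤ) : ZMod N) =
          ((g 0 0 * u * g 1 0 - g 0 0 : ℤ) : ZMod N) := by push_cast; ring
      rw [h1, ZMod.intCast_zmod_eq_zero_iff_dvd]
      exact ⟨- g 0 0 * v, by linear_combination g 0 0 * huv⟩

/-- (C2) The number of fixed points of `S`. -/
theorem natCard_fixed_S (N : ℕ) [NeZero N] :
    Nat.card {q : X N // ModularGroup.S • q = q} = ModularCurve.nuTwo N := by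
  rw [natCard_fixed N ModularGroup.S 0 (fun g => by
    rw [(S_mul_col g).1, (S_mul_col g).2]; ring), ModularCurve.nuTwo]
  simp

/-- (C3) The number of fixed points of `S * T`. -/
theorem natCard_fixed_ST (N : ℕ) [NeZero N] :
    Nat.card {q : X N // (ModularGroup.S * ModularGroup.T) • q = q} = ModularCurve.nuThree N := by
  rw [natCard_fixed N (ModularGroup.S * ModularGroup.T) 1 (fun g => by
    rw [(ST_mul_col g).1, (ST_mul_col g).2]; ring), ModularCurve.nuThree]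
  simp

end Fermat.Agent.Gamma0Comb
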