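import Mathlib
import Fermat.Prelude.Def_ModularCurve_GenusNumerics

set_option autoImplicit false

/-!
# An arithmetic identity for the Dedekind `ψ` function
-/

namespace Fermat.Agent.Gamma0Comb

open Nat Finset

theorem sum_divisors_mul_of_coprime {m n : ℕ} (h : m.Coprime n) (F : ℕ → ℕ) :
    ∑ d ∈ (m * n).divisors, F d = ∑ a ∈ m.divisors, ∑ b ∈ n.divisors, F (a * b) := by
  rw [h.divisors_mul, Finset.sum_map, ← Finset.sum_product']
  exact Finset.sum_attach (m.divisors ×ˢ n.divisors) (fun p => F (p.1 * p.2))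

/-- The count of cosets by denominators. -/
def psiAux (N : ℕ) : ℕ :=
  ∑ d ∈ N.divisors, φ (Nat.gcd d (N / d)) * ((N / d) / Nat.gcd d (N / d))

theorem gcd_mul_mul_of_coprime {a a' b b' : ℕ} (h : (a * a').Coprime (b * b')) :
    Nat.gcd (a * b) (a' * b') = Nat.gcd a a' * Nat.gcd b b' := by
  have h2 : a'.Coprime b' := by
    exact (Nat.Coprime.coprime_dvd_left (dvd_mul_left _ _)
      (Nat.Coprime.coprime_dvd_right (dvd_mul_left _ _) h))
  have h3 : a.Coprime b' := (Nat.Coprime.coprime_dvd_left (dvd_mul_right _ _)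
      (Nat.Coprime.coprime_dvd_right (dvd_mul_left _ _) h))
  have h4 : a'.Coprime b := (Nat.Coprime.coprime_dvd_left (dvd_mul_left _ _)
      (Nat.Coprime.coprime_dvd_right (dvd_mul_right _ _) h))
  rw [Nat.Coprime.gcd_mul _ h2, Nat.Coprime.gcd_mul_right_cancel _ h4.symm,
    Nat.Coprime.gcd_mul_left_cancel _ h3]

theorem psiAux_mul {m n : ℕ} (hm : 0 < m) (hn : 0 < n) (h : m.Coprime n) :
    psiAux (m * n) = psiAux m * psiAux n := by
  unfold psiAux
  rw [sum_divisors_mul_of_coprime h, Finset.sum_mul_sum]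
  refine Finset.sum_congr rfl fun a ha => Finset.sum_congr rfl fun b hb => ?_
  obtain ⟨a', rfl⟩ := Nat.dvd_of_mem_divisors ha
  obtain ⟨b', rfl⟩ := Nat.dvd_of_mem_divisors hb
  have ha0 : 0 < a := Nat.pos_of_mem_divisors ha
  have hb0 : 0 < b := Nat.pos_of_mem_divisors hb
  have hab : a * a' * (b * b') / (a * b) = a' * b' := by
    rw [show a * a' * (b * b') = (a * b) * (a' * b') by ring]
    exact Nat.mul_div_cancel_left _ (Nat.mul_pos ha0 hb0)
  rw [hab, Nat.mul_div_cancel_left _ ha0, Nat.mul_div_cancel_left _ hb0,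
    gcd_mul_mul_of_coprime h]
  have hcop : (Nat.gcd a a').Coprime (Nat.gcd b b') :=
    Nat.Coprime.coprime_dvd_left ((Nat.gcd_dvd_left a a').trans (dvd_mul_right a a'))
      (Nat.Coprime.coprime_dvd_right ((Nat.gcd_dvd_left b b').trans (dvd_mul_right b b')) h)
  rw [Nat.totient_mul hcop, Nat.mul_div_mul_comm (Nat.gcd_dvd_right _ _) (Nat.gcd_dvd_right _ _)]
  ring

theorem dedekindPsi_mul {m n : ℕ} (h : m.Coprime n) :
    ModularCurve.dedekindPsi (m * n) = ModularCurve.dedekindPsi m * ModularCurve.dedekindPsi n := by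
  unfold ModularCurve.dedekindPsi
  rw [Finset.sum_filter, Finset.sum_filter, Finset.sum_filter, sum_divisors_mul_of_coprime h,
    Finset.sum_mul_sum]
  refine Finset.sum_congr rfl fun a ha => Finset.sum_congr rfl fun b hb => ?_
  have had := Nat.dvd_of_mem_divisors ha
  have hbd := Nat.dvd_of_mem_divisors hb
  have hcop : a.Coprime b := Nat.Coprime.coprime_dvd_left had (Nat.Coprime.coprime_dvd_right hbd h)
  have hsq := Nat.squarefree_mul hcop
  by_cases h1 : Squarefree a
  · by_cases h2 : Squarefree b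
    · rw [if_pos (hsq.mpr ⟨h1, h2⟩), if_pos h1, if_pos h2, Nat.mul_div_mul_comm had hbd]
    · rw [if_neg (fun h => h2 (hsq.mp h).2), if_neg h2, mul_zero]
  · rw [if_neg (fun h => h1 (hsq.mp h).1), if_neg h1, zero_mul]

theorem psiAux_prime_pow {p : ℕ} (hp : p.Prime) (m : ℕ) :
    psiAux (p ^ (m + 1)) = p ^ (m + 1) + p ^ m := by
  unfold psiAux
  rw [Nat.sum_divisors_prime_pow hp, Finset.sum_range_succ, Finset.sum_range_succ']
  have h1 : ∀ i ∈ Finset.range m, φ (Nat.gcd (p ^ (i + 1)) (p ^ (m + 1) / p ^ (i + 1))) *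
      (p ^ (m + 1) / p ^ (i + 1) / Nat.gcd (p ^ (i + 1)) (p ^ (m + 1) / p ^ (i + 1))) =
      (p - 1) * p ^ (m - 1 - i) := by
    intro i hi
    rw [Finset.mem_range] at hi
    have e1 : p ^ (m + 1) / p ^ (i + 1) = p ^ (m - i) := by
      rw [Nat.pow_div (by omega) hp.pos]
      congr 1; omega
    rw [e1]
    rcases le_total (i + 1) (m - i) with h | h
    · have e2 : Nat.gcd (p ^ (i + 1)) (p ^ (m - i)) = p ^ (i + 1) :=
        Nat.gcd_eq_left (pow_dvd_pow p h)
      rw [e2, Nat.totient_prime_pow_succ hp, Nat.pow_div h hp.pos]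
      have e3 : p ^ (m - 1 - i) = p ^ i * p ^ (m - i - (i + 1)) := by
        rw [← pow_add]; congr 1; omega
      rw [e3]; ring
    · have e2 : Nat.gcd (p ^ (i + 1)) (p ^ (m - i)) = p ^ (m - i) :=
        Nat.gcd_eq_right (pow_dvd_pow p h)
      obtain ⟨j, hj⟩ : ∃ j, m - i = j + 1 := ⟨m - i - 1, by omega⟩
      rw [e2, hj, Nat.totient_prime_pow_succ hp, Nat.div_self (pow_pos hp.pos _)]
      have e3 : m - 1 - i = j := by omega
      rw [e3]; ring
  rw [Finset.sum_congr rfl h1, ← Finset.mul_sum]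
  have h2 : ∑ i ∈ Finset.range m, p ^ (m - 1 - i) = ∑ i ∈ Finset.range m, p ^ i :=
    Finset.sum_range_reflect (fun i => p ^ i) m
  rw [h2]
  have h3 : (p - 1) * ∑ i ∈ Finset.range m, p ^ i + 1 = p ^ m := by
    have := geom_sum_mul_add (p - 1) m
    rw [Nat.sub_add_cancel hp.one_le] at this
    rw [mul_comm]; exact this
  have h4 : φ (Nat.gcd (p ^ 0) (p ^ (m + 1) / p ^ 0)) *
      (p ^ (m + 1) / p ^ 0 / Nat.gcd (p ^ 0) (p ^ (m + 1) / p ^ 0)) = p ^ (m + 1) := by
    simp
  have h5 : φ (Nat.gcd (p ^ (m + 1)) (p ^ (m + 1) / p ^ (m + 1))) *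
      (p ^ (m + 1) / p ^ (m + 1) / Nat.gcd (p ^ (m + 1)) (p ^ (m + 1) / p ^ (m + 1))) = 1 := by
    rw [Nat.div_self (pow_pos hp.pos _)]
    simp
  rw [h4, h5]
  omega

theorem dedekindPsi_prime_pow {p : ℕ} (hp : p.Prime) (m : ℕ) :
    ModularCurve.dedekindPsi (p ^ (m + 1)) = p ^ (m + 1) + p ^ m := by
  unfold ModularCurve.dedekindPsi
  rw [Finset.sum_filter, Nat.sum_divisors_prime_pow hp, Finset.sum_range_succ',
    Finset.sum_range_succ']
  have h1 : ∀ i ∈ Finset.range m, (if Squarefree (p ^ (i + 1 + 1)) then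
      p ^ (m + 1) / p ^ (i + 1 + 1) else 0) = 0 := by
    intro i _
    rw [if_neg]
    intro h
    have := (Nat.squarefree_pow_iff hp.one_lt.ne' (by omega)).mp h
    omega
  rw [Finset.sum_congr rfl h1, Finset.sum_const_zero, zero_add, zero_add, pow_one, pow_zero,
    if_pos hp.squarefree, if_pos squarefree_one, Nat.div_one, pow_succ,
    Nat.mul_div_cancel _ hp.pos]
  ring

theorem psiAux_eq_dedekindPsi (N : ℕ) : psiAux N = ModularCurve.dedekindPsi N := by
  induction N using Nat.recOnPosPrimePosCoprime with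
  | prime_pow p n hp hn =>
    obtain ⟨m, rfl⟩ : ∃ m, n = m + 1 := ⟨n - 1, by omega⟩
    rw [psiAux_prime_pow hp, dedekindPsi_prime_pow hp]
  | zero => simp [psiAux, ModularCurve.dedekindPsi]
  | one => simp [psiAux]
  | coprime a b ha hb hab iha ihb =>
    rw [psiAux_mul (by omega) (by omega) hab, dedekindPsi_mul hab, iha, ihb]

end Fermat.Agent.Gamma0Comb
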