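import Mathlib
import Fermat.Agent.Gamma0Comb.Coset
import Fermat.Agent.Gamma0Comb.Psi

set_option autoImplicit false

/-!
# Parametrisation of `SL(2, ℤ) / Γ₀(N)` and of its orbits under translations
-/

open CongruenceSubgroup Matrix.SpecialLinearGroup
open scoped MatrixGroups

namespace Fermat.Agent.Gamma0Comb

theorem natCard_isUnit_castHom {e M : ℕ} [NeZero M] (h : e ∣ M) :
    Nat.card {x : ZMod M // IsUnit (ZMod.castHom h (ZMod e) x)} = Nat.totient e * (M / e) := by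
  have he : e ≠ 0 := fun h0 => NeZero.ne M (by rw [h0] at h; exact zero_dvd_iff.mp h)
  have : NeZero e := ⟨he⟩
  set f := ZMod.castHom h (ZMod e) with hf
  have hsurj : Function.Surjective f := ZMod.castHom_surjective h
  have hker : Nat.card f.toAddMonoidHom.ker = M / e := by
    have h1 := AddSubgroup.card_mul_index f.toAddMonoidHom.ker
    rw [AddSubgroup.index_ker, Nat.card_zmod] at h1
    have h2 : Nat.card f.toAddMonoidHom.range = e := by
      have : f.toAddMonoidHom.range = ⊤ := AddMonoidHom.range_eq_top.mpr hsurj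
      rw [this, AddSubgroup.card_top, Nat.card_zmod]
    rw [h2] at h1
    exact (Nat.div_eq_of_eq_mul_left (Nat.pos_of_ne_zero he) h1.symm).symm
  have hfib : ∀ u : (ZMod e)ˣ, Nat.card {x : ZMod M // f x = u} = M / e := by
    intro u
    obtain ⟨x0, hx0⟩ := hsurj u
    rw [← hker]
    refine Nat.card_congr ⟨fun x => ⟨x.1 - x0, ?_⟩, fun y => ⟨y.1 + x0, ?_⟩, fun x => ?_, fun y => ?_⟩
    · rw [AddMonoidHom.mem_ker]
      change f (x.1 - x0) = 0
      rw [map_sub, x.2, hx0, sub_self]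
    · have hy := y.2
      rw [AddMonoidHom.mem_ker] at hy
      have hy' : f y.1 = 0 := hy
      rw [map_add, hy', hx0, zero_add]
    · exact Subtype.ext (sub_add_cancel _ _)
    · exact Subtype.ext (add_sub_cancel_right _ _)
  have e1 : {x : ZMod M // IsUnit (f x)} ≃ Σ u : (ZMod e)ˣ, {x : ZMod M // f x = u} :=
    { toFun := fun x => ⟨x.2.unit, x.1, rfl⟩
      invFun := fun p => ⟨p.2.1, by rw [p.2.2]; exact p.1.isUnit⟩
      left_inv := fun x => rfl
      right_inv := by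
        rintro ⟨u, x, hx⟩
        exact Sigma.subtype_ext (Units.ext hx) rfl }
  rw [Nat.card_congr e1, Nat.card_sigma, Finset.sum_congr rfl (fun u _ => hfib u),
    Finset.sum_const, smul_eq_mul, Finset.card_univ, ZMod.card_units_eq_totient]

/-- Lifting a residue class prime to `gcd d M` to an integer prime to `d`. -/
theorem exists_rep {d M : ℕ} (hd : 0 < d) (x : ℤ) (hx : IsCoprime x (Nat.gcd d M : ℤ)) :
    ∃ a : ℤ, (M : ℤ) ∣ a - x ∧ IsCoprime a d := by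
  have : NeZero d := ⟨hd.ne'⟩
  have hu : IsUnit ((x : ℤ) : ZMod (Nat.gcd d M)) := by
    rw [ZMod.coe_int_isUnit_iff_isCoprime]
    exact hx.symm
  obtain ⟨u, hu'⟩ := ZMod.unitsMap_surjective (Nat.gcd_dvd_left d M) hu.unit
  have h1 : ((u : ZMod d).val : ZMod (Nat.gcd d M)) = (x : ZMod (Nat.gcd d M)) := by
    have := congrArg Units.val hu'
    rw [ZMod.unitsMap_val] at this
    rw [ZMod.natCast_val]
    exact this
  have h2 : ((Nat.gcd d M : ℕ) : ℤ) ∣ ((u : ZMod d).val : ℤ) - x := by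
    rw [← ZMod.intCast_zmod_eq_zero_iff_dvd]
    push_cast
    rw [h1, sub_self]
  have h3 : IsCoprime ((u : ZMod d).val : ℤ) (d : ℤ) := by
    rw [Nat.isCoprime_iff_coprime]
    exact ZMod.val_coe_unit_coprime u
  obtain ⟨k, hk⟩ := h2
  have hb := Nat.gcd_eq_gcd_ab d M
  refine ⟨x + M * (Nat.gcdB d M * k), ⟨Nat.gcdB d M * k, by ring⟩, ?_⟩
  have h4 : x + M * (Nat.gcdB d M * k) = ((u : ZMod d).val : ℤ) + d * (-(Nat.gcdA d M * k)) := by
    linear_combination (-1 : ℤ) * hk + (-k) * hb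
  rw [h4]
  exact (IsCoprime.add_mul_left_left_iff).mpr h3

variable {N : ℕ}

/-- A matrix with prescribed denominator `d ∣ N` and numerator. -/
theorem exists_matrix {d M : ℕ} (hd : 0 < d) (x : ZMod M)
    (hx : IsUnit (ZMod.castHom (Nat.gcd_dvd_right d M) (ZMod (Nat.gcd d M)) x)) :
    ∃ g : SL(2, ℤ), ((g 0 0 : ℤ) : ZMod M) = x ∧ g 1 0 = d := by
  obtain ⟨y, rfl⟩ := ZMod.intCast_surjective x
  rw [map_intCast, ZMod.coe_int_isUnit_iff_isCoprime] at hx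
  obtain ⟨a, ha, hcop⟩ := exists_rep hd y hx.symm
  obtain ⟨g, hg0, hg1⟩ := hcop.exists_SL2_col 0
  refine ⟨g, ?_, hg1⟩
  rw [hg0, ← sub_eq_zero, ← Int.cast_sub, ZMod.intCast_zmod_eq_zero_iff_dvd]
  exact ha

/-- Two columns `(a, d)` and `(a', d')` with `d, d' ∣ N` in the same translation class have the
same denominators. -/
theorem den_eq {d d' : ℕ} (hd : d ∣ N) (hd' : d' ∣ N) {g g' : SL(2, ℤ)} (hg : g 1 0 = d)
    (hg' : g' 1 0 = d') (n : ℤ) (h : (N : ℤ) ∣ (g 0 0 + n * g 1 0) * g' 1 0 - g 1 0 * g' 0 0) :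
    d = d' := by
  have hc := isCoprime_col g
  have hc' := isCoprime_col g'
  rw [hg] at hc
  rw [hg'] at hc'
  rw [hg, hg'] at h
  have h1 : (d : ℤ) ∣ d' := by
    have h2 : (d : ℤ) ∣ (g 0 0 + n * d) * d' - d * g' 0 0 :=
      (Int.natCast_dvd_natCast.mpr hd).trans h
    have h3 : (d : ℤ) ∣ g 0 0 * d' := by
      obtain ⟨k, hk⟩ := h2
      exact ⟨k - n * d' + g' 0 0, by linear_combination hk⟩
    exact hc.symm.dvd_of_dvd_mul_left h3
  have h1' : (d' : ℤ) ∣ d := by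
    have h2 : (d' : ℤ) ∣ (g 0 0 + n * d) * d' - d * g' 0 0 :=
      (Int.natCast_dvd_natCast.mpr hd').trans h
    have h3 : (d' : ℤ) ∣ g' 0 0 * d := by
      obtain ⟨k, hk⟩ := h2
      exact ⟨(g 0 0 + n * d) - k, by linear_combination -hk⟩
    exact hc'.symm.dvd_of_dvd_mul_left h3
  exact Nat.dvd_antisymm (Int.natCast_dvd_natCast.mp h1) (Int.natCast_dvd_natCast.mp h1')

theorem num_dvd [NeZero N] {d : ℕ} (hd : d ∣ N) {g g' : SL(2, ℤ)} (hg : g 1 0 = d)
    (hg' : g' 1 0 = d) (n : ℤ) :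
    ((N : ℤ) ∣ (g 0 0 + n * g 1 0) * g' 1 0 - g 1 0 * g' 0 0) ↔
      ((N / d : ℕ) : ℤ) ∣ g 0 0 + n * d - g' 0 0 := by
  have hd0 : (d : ℤ) ≠ 0 := by
    have : d ≠ 0 := fun h0 => NeZero.ne N (by rw [h0] at hd; exact zero_dvd_iff.mp hd)
    exact_mod_cast this
  have hN : (N : ℤ) = d * ((N / d : ℕ) : ℤ) := by
    rw [← Nat.cast_mul, Nat.mul_div_cancel' hd]
  rw [hg, hg', hN, show (g 0 0 + n * d) * d - d * g' 0 0 = (d : ℤ) * (g 0 0 + n * d - g' 0 0) by
    ring, mul_dvd_mul_iff_left hd0]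

/-- The normal form of a column. -/
theorem exists_normal [NeZero N] (g : SL(2, ℤ)) : ∃ (d : ℕ) (_ : d ∣ N) (c₁ v : ℤ),
    g 1 0 = d * c₁ ∧ ((N / d : ℕ) : ℤ) ∣ v * c₁ - 1 ∧
      IsCoprime (g 0 0 * v) (Nat.gcd d (N / d) : ℤ) := by
  have hN : (N : ℤ) ≠ 0 := by exact_mod_cast NeZero.ne N
  set d : ℕ := Int.gcd (g 1 0) N with hd
  have hdN : d ∣ N := by
    have := Int.gcd_dvd_right (g 1 0) (N : ℤ)
    exact Int.natCast_dvd_natCast.mp this
  have hd0 : 0 < d := Int.gcd_pos_of_ne_zero_right _ hN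
  obtain ⟨c₁, hc₁⟩ := Int.gcd_dvd_left (g 1 0) (N : ℤ)
  have hMd : (N : ℤ) = d * ((N / d : ℕ) : ℤ) := by
    rw [← Nat.cast_mul, Nat.mul_div_cancel' hdN]
  have hb := Int.gcd_eq_gcd_ab (g 1 0) (N : ℤ)
  set v := Int.gcdA (g 1 0) N with hv
  set w := Int.gcdB (g 1 0) N with hw
  have h1 : v * c₁ + w * ((N / d : ℕ) : ℤ) = 1 := by
    have hd0' : (d : ℤ) ≠ 0 := by exact_mod_cast hd0.ne'
    apply mul_left_cancel₀ hd0'
    rw [← hd] at hb hc₁
    linear_combination (-1 : ℤ) * hb - v * hc₁ - w * hMd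
  refine ⟨d, hdN, c₁, v, hc₁, ⟨-w, by linear_combination h1⟩, ?_⟩
  refine IsCoprime.mul_left ?_ ?_
  · have h2 := isCoprime_col g
    rw [hc₁] at h2
    refine IsCoprime.of_isCoprime_of_dvd_right h2 ?_
    exact (Int.natCast_dvd_natCast.mpr (Nat.gcd_dvd_left _ _)).trans (dvd_mul_right _ _)
  · have h2 : IsCoprime v ((N / d : ℕ) : ℤ) := ⟨c₁, w, by linear_combination h1⟩
    exact IsCoprime.of_isCoprime_of_dvd_right h2
      (Int.natCast_dvd_natCast.mpr (Nat.gcd_dvd_right _ _))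

/-- The index set of cosets: a denominator `d ∣ N` and a residue class modulo `N / d`. -/
abbrev CosetIndex (N : ℕ) : Type :=
  Σ d : {d // d ∈ N.divisors}, {x : ZMod (N / d.1) //
    IsUnit (ZMod.castHom (Nat.gcd_dvd_right d.1 (N / d.1)) (ZMod (Nat.gcd d.1 (N / d.1))) x)}

/-- The index set of cusps. -/
abbrev CuspIndex (N : ℕ) : Type :=
  Σ d : {d // d ∈ N.divisors}, (ZMod (Nat.gcd d.1 (N / d.1)))ˣ

theorem pos_of_mem {d : {d // d ∈ N.divisors}} : 0 < d.1 := Nat.pos_of_mem_divisors d.2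

/-- A matrix representing a coset index. -/
noncomputable def cosetMatrix (p : CosetIndex N) : SL(2, ℤ) :=
  (exists_matrix (pos_of_mem (d := p.1)) p.2.1 p.2.2).choose

theorem cosetMatrix_num (p : CosetIndex N) :
    ((cosetMatrix p 0 0 : ℤ) : ZMod (N / p.1.1)) = p.2.1 :=
  (exists_matrix (pos_of_mem (d := p.1)) p.2.1 p.2.2).choose_spec.1

theorem cosetMatrix_den (p : CosetIndex N) : cosetMatrix p 1 0 = (p.1.1 : ℤ) :=
  (exists_matrix (pos_of_mem (d := p.1)) p.2.1 p.2.2).choose_spec.2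

theorem cosetMatrix_bijective [NeZero N] :
    Function.Bijective (fun p : CosetIndex N => ((cosetMatrix p : SL(2, ℤ)) : X N)) := by
  constructor
  · intro p q hpq
    have h := (mk_eq_iff _ _).mp hpq
    have h' : (N : ℤ) ∣ (cosetMatrix p 0 0 + 0 * cosetMatrix p 1 0) * cosetMatrix q 1 0 -
        cosetMatrix p 1 0 * cosetMatrix q 0 0 := by rw [zero_mul, add_zero]; exact h
    have hd := den_eq (Nat.dvd_of_mem_divisors p.1.2) (Nat.dvd_of_mem_divisors q.1.2)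
      (cosetMatrix_den p) (cosetMatrix_den q) 0 h'
    obtain ⟨⟨d, hdm⟩, x⟩ := p
    obtain ⟨⟨d', hdm'⟩, y⟩ := q
    obtain rfl : d = d' := hd
    rw [num_dvd (Nat.dvd_of_mem_divisors hdm) (cosetMatrix_den _) (cosetMatrix_den _)] at h'
    refine Sigma.ext rfl (heq_of_eq (Subtype.ext ?_))
    have e1 := cosetMatrix_num ⟨⟨d, hdm⟩, x⟩
    have e2 := cosetMatrix_num ⟨⟨d, hdm'⟩, y⟩
    change x.1 = y.1
    refine e1.symm.trans (Eq.trans ?_ e2)
    rw [← sub_eq_zero, ← Int.cast_sub, ZMod.intCast_zmod_eq_zero_iff_dvd]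
    simpa using h'
  · intro q
    obtain ⟨g, rfl⟩ := QuotientGroup.mk_surjective q
    obtain ⟨d, hd, c₁, v, hc, hv, hcop⟩ := exists_normal (N := N) g
    refine ⟨⟨⟨d, Nat.mem_divisors.mpr ⟨hd, NeZero.ne N⟩⟩,
      ⟨((g 0 0 * v : ℤ) : ZMod (N / d)), ?_⟩⟩, ?_⟩
    · rw [map_intCast, ZMod.coe_int_isUnit_iff_isCoprime]
      exact hcop.symm
    · set p : CosetIndex N := ⟨⟨d, Nat.mem_divisors.mpr ⟨hd, NeZero.ne N⟩⟩,
        ⟨((g 0 0 * v : ℤ) : ZMod (N / d)), by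
          rw [map_intCast, ZMod.coe_int_isUnit_iff_isCoprime]; exact hcop.symm⟩⟩ with hp
      change ((cosetMatrix p : SL(2, ℤ)) : X N) = _
      rw [mk_eq_iff]
      have h1 := cosetMatrix_num p
      have h2 : cosetMatrix p 1 0 = (d : ℤ) := cosetMatrix_den p
      have h3 : ((N / d : ℕ) : ℤ) ∣ cosetMatrix p 0 0 - g 0 0 * v := by
        rw [← ZMod.intCast_zmod_eq_zero_iff_dvd, Int.cast_sub, sub_eq_zero]
        exact h1
      have hN : (N : ℤ) = d * ((N / d : ℕ) : ℤ) := by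
        rw [← Nat.cast_mul, Nat.mul_div_cancel' hd]
      rw [h2, hc, hN, show cosetMatrix p 0 0 * ((d : ℤ) * c₁) - d * g 0 0 =
        d * (cosetMatrix p 0 0 * c₁ - g 0 0) by ring]
      apply mul_dvd_mul_left
      have h4 := dvd_add (Dvd.dvd.mul_right h3 c₁) (Dvd.dvd.mul_left hv (g 0 0))
      have h5 : (cosetMatrix p 0 0 - g 0 0 * v) * c₁ + g 0 0 * (v * c₁ - 1) =
        cosetMatrix p 0 0 * c₁ - g 0 0 := by ring
      rwa [h5] at h4

/-- (C1) The number of cosets. -/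
theorem natCard_coset (N : ℕ) [NeZero N] : Nat.card (X N) = ModularCurve.dedekindPsi N := by
  rw [← psiAux_eq_dedekindPsi, ← Nat.card_congr (Equiv.ofBijective _ cosetMatrix_bijective)]
  have hfin : ∀ d : {d // d ∈ N.divisors}, NeZero (N / d.1) := fun d =>
    ⟨(Nat.div_pos (Nat.divisor_le d.2) (Nat.pos_of_mem_divisors d.2)).ne'⟩
  rw [Nat.card_sigma, psiAux, ← Finset.sum_attach N.divisors, Finset.univ_eq_attach]
  refine Finset.sum_congr rfl fun d _ => ?_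
  have := hfin d
  exact natCard_isUnit_castHom _

theorem index_Gamma0 (N : ℕ) [NeZero N] : (Gamma0 N).index = ModularCurve.dedekindPsi N :=
  natCard_coset N

/-- The space of orbits of `SL(2, ℤ) / Γ₀(N)` under integral translations. -/
abbrev CuspOrbits (N : ℕ) : Type :=
  MulAction.orbitRel.Quotient (Subgroup.zpowers ModularGroup.T) (X N)

theorem orbit_eq_iff (g h : SL(2, ℤ)) :
    ((Quotient.mk'' (h : X N) : CuspOrbits N) = Quotient.mk'' (g : X N)) ↔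
      ∃ n : ℤ, (N : ℤ) ∣ (g 0 0 + n * g 1 0) * h 1 0 - g 1 0 * h 0 0 := by
  rw [Quotient.eq'', MulAction.orbitRel_apply, MulAction.mem_orbit_iff]
  constructor
  · rintro ⟨⟨t, ht⟩, h1⟩
    obtain ⟨n, rfl⟩ := Subgroup.mem_zpowers_iff.mp ht
    refine ⟨n, ?_⟩
    have h2 : ((ModularGroup.T ^ n * g : SL(2, ℤ)) : X N) = (h : X N) := h1
    rw [mk_eq_iff, (T_zpow_mul_col n g).1, (T_zpow_mul_col n g).2] at h2
    exact h2
  · rintro ⟨n, hn⟩
    refine ⟨⟨ModularGroup.T ^ n, Subgroup.mem_zpowers_iff.mpr ⟨n, rfl⟩⟩, ?_⟩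
    have h2 : ((ModularGroup.T ^ n * g : SL(2, ℤ)) : X N) = (h : X N) := by
      rw [mk_eq_iff, (T_zpow_mul_col n g).1, (T_zpow_mul_col n g).2]
      exact hn
    exact h2

theorem exists_cuspMatrix (p : CuspIndex N) :
    ∃ g : SL(2, ℤ), ((g 0 0 : ℤ) : ZMod (Nat.gcd p.1.1 (N / p.1.1))) = p.2 ∧
      g 1 0 = (p.1.1 : ℤ) := by
  obtain ⟨x, hx⟩ := ZMod.castHom_surjective (Nat.gcd_dvd_right p.1.1 (N / p.1.1)) (p.2 : ZMod _)
  obtain ⟨g, hg0, hg1⟩ := exists_matrix (pos_of_mem (d := p.1)) x (by rw [hx]; exact p.2.isUnit)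
  refine ⟨g, ?_, hg1⟩
  rw [← hx, ← hg0, map_intCast]

/-- A matrix representing a cusp index. -/
noncomputable def cuspMatrix (p : CuspIndex N) : SL(2, ℤ) := (exists_cuspMatrix p).choose

theorem cuspMatrix_num (p : CuspIndex N) :
    ((cuspMatrix p 0 0 : ℤ) : ZMod (Nat.gcd p.1.1 (N / p.1.1))) = p.2 :=
  (exists_cuspMatrix p).choose_spec.1

theorem cuspMatrix_den (p : CuspIndex N) : cuspMatrix p 1 0 = (p.1.1 : ℤ) :=
  (exists_cuspMatrix p).choose_spec.2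

theorem cuspMatrix_bijective [NeZero N] :
    Function.Bijective (fun p : CuspIndex N =>
      (Quotient.mk'' ((cuspMatrix p : SL(2, ℤ)) : X N) : CuspOrbits N)) := by
  constructor
  · intro p q hpq
    obtain ⟨n, h'⟩ := (orbit_eq_iff _ _).mp hpq
    have hd := den_eq (Nat.dvd_of_mem_divisors q.1.2) (Nat.dvd_of_mem_divisors p.1.2)
      (cuspMatrix_den q) (cuspMatrix_den p) n h'
    obtain ⟨⟨d, hdm⟩, x⟩ := p
    obtain ⟨⟨d', hdm'⟩, y⟩ := q
    obtain rfl : d' = d := hd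
    rw [num_dvd (Nat.dvd_of_mem_divisors hdm) (cuspMatrix_den _) (cuspMatrix_den _)] at h'
    congr 1
    apply Units.ext
    have e1 := cuspMatrix_num ⟨⟨d', hdm⟩, x⟩
    have e2 := cuspMatrix_num ⟨⟨d', hdm'⟩, y⟩
    refine e1.symm.trans (Eq.trans ?_ e2)
    rw [← sub_eq_zero, ← Int.cast_sub, ZMod.intCast_zmod_eq_zero_iff_dvd]
    have h1 : ((Nat.gcd d' (N / d') : ℕ) : ℤ) ∣ cuspMatrix ⟨⟨d', hdm'⟩, y⟩ 0 0 + n * d' -
        cuspMatrix ⟨⟨d', hdm⟩, x⟩ 0 0 :=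
      (Int.natCast_dvd_natCast.mpr (Nat.gcd_dvd_right _ _)).trans h'
    have h2 : ((Nat.gcd d' (N / d') : ℕ) : ℤ) ∣ n * d' :=
      Dvd.dvd.mul_left (Int.natCast_dvd_natCast.mpr (Nat.gcd_dvd_left _ _)) _
    have h3 := dvd_sub h2 h1
    have h4 : n * (d' : ℤ) - (cuspMatrix ⟨⟨d', hdm'⟩, y⟩ 0 0 + n * d' -
        cuspMatrix ⟨⟨d', hdm⟩, x⟩ 0 0) = cuspMatrix ⟨⟨d', hdm⟩, x⟩ 0 0 -
          cuspMatrix ⟨⟨d', hdm'⟩, y⟩ 0 0 := by ring
    rwa [h4] at h3
  · intro q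
    induction q using Quotient.inductionOn' with
    | _ q =>
    obtain ⟨g, rfl⟩ := QuotientGroup.mk_surjective q
    obtain ⟨d, hd, c₁, v, hc, hv, hcop⟩ := exists_normal (N := N) g
    have hu : IsUnit ((g 0 0 * v : ℤ) : ZMod (Nat.gcd d (N / d))) := by
      rw [ZMod.coe_int_isUnit_iff_isCoprime]
      exact hcop.symm
    set p : CuspIndex N := ⟨⟨d, Nat.mem_divisors.mpr ⟨hd, NeZero.ne N⟩⟩, hu.unit⟩ with hp
    refine ⟨p, ?_⟩
    change (Quotient.mk'' ((cuspMatrix p : SL(2, ℤ)) : X N) : CuspOrbits N) = _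
    refine Eq.symm ((orbit_eq_iff _ _).mpr ?_)
    have h1 := cuspMatrix_num p
    have h2 : cuspMatrix p 1 0 = (d : ℤ) := cuspMatrix_den p
    have h3 : ((Nat.gcd d (N / d) : ℕ) : ℤ) ∣ cuspMatrix p 0 0 - g 0 0 * v := by
      rw [← ZMod.intCast_zmod_eq_zero_iff_dvd, Int.cast_sub, sub_eq_zero]
      exact h1
    have hN : (N : ℤ) = d * ((N / d : ℕ) : ℤ) := by
      rw [← Nat.cast_mul, Nat.mul_div_cancel' hd]
    obtain ⟨k, hk⟩ := h3
    have hb := Nat.gcd_eq_gcd_ab d (N / d)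
    refine ⟨-(Nat.gcdA d (N / d) * k), ?_⟩
    rw [h2, hc, hN, show (cuspMatrix p 0 0 + -(Nat.gcdA d (N / d) * k) * (d : ℤ)) * (d * c₁) -
      d * g 0 0 = d * ((cuspMatrix p 0 0 - Nat.gcdA d (N / d) * k * d) * c₁ - g 0 0) by ring]
    apply mul_dvd_mul_left
    obtain ⟨w, hw⟩ := hv
    refine ⟨Nat.gcdB d (N / d) * k * c₁ + g 0 0 * w, ?_⟩
    linear_combination c₁ * hk + g 0 0 * hw + k * c₁ * hb

/-- (C4) The number of cusps. -/
theorem natCard_cuspOrbits (N : ℕ) [NeZero N] :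
    Nat.card (CuspOrbits N) = ModularCurve.cuspCount N := by
  have hfin : ∀ d : {d // d ∈ N.divisors}, NeZero (Nat.gcd d.1 (N / d.1)) := fun d =>
    ⟨(Nat.gcd_pos_of_pos_left _ (Nat.pos_of_mem_divisors d.2)).ne'⟩
  rw [← Nat.card_congr (Equiv.ofBijective _ cuspMatrix_bijective), Nat.card_sigma,
    ModularCurve.cuspCount, ← Finset.sum_attach N.divisors, Finset.univ_eq_attach]
  refine Finset.sum_congr rfl fun d _ => ?_
  have := hfin d
  rw [Nat.card_eq_fintype_card, ZMod.card_units_eq_totient]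

end Fermat.Agent.Gamma0Comb
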