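import Mathlib

set_option autoImplicit false

/-!
# Cycle counts of permutations and Scott's inequality (Riemann–Hurwitz genus is nonnegative)
-/

open Equiv.Perm Equiv

namespace Fermat.Agent.Gamma0Comb

section Cyc

variable {α : Type*}

/-- The number of cycles (including fixed points) of a permutation. -/
noncomputable def cyc (σ : Perm α) : ℕ := Nat.card (Quotient (SameCycle.setoid σ))

variable [Fintype α] [DecidableEq α]

theorem cyc_eq (σ : Perm α) :
    cyc σ = Nat.card {x // σ x = x} + Multiset.card σ.cycleType := by
  have e : {x // σ x = x} ⊕ {c // c ∈ σ.cycleFactorsFinset} ≃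
      Quotient (SameCycle.setoid σ) := by
    refine Equiv.ofBijective (Sum.elim (fun x => Quotient.mk (SameCycle.setoid σ) x.1)
      (fun c => Quotient.mk (SameCycle.setoid σ)
        ((mem_cycleFactorsFinset_iff.mp c.2).1.nonempty_support.choose))) ⟨?_, ?_⟩
    · rintro (⟨x, hx⟩ | ⟨c, hc⟩) (⟨y, hy⟩ | ⟨d, hd⟩) h
      · have h1 : SameCycle σ x y := Quotient.exact h
        have h2 := h1.eq_of_left hx
        exact congrArg Sum.inl (Subtype.ext h2)
      · have h1 : SameCycle σ x _ := Quotient.exact h
        have h2 := h1.eq_of_left hx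
        have h3 := (mem_cycleFactorsFinset_iff.mp hd).1.nonempty_support.choose_spec
        have h4 := mem_cycleFactorsFinset_support_le hd h3
        rw [← h2, Equiv.Perm.mem_support] at h4
        exact absurd hx h4
      · have h1 : SameCycle σ _ y := Quotient.exact h
        have h2 := h1.symm.eq_of_left hy
        have h3 := (mem_cycleFactorsFinset_iff.mp hc).1.nonempty_support.choose_spec
        have h4 := mem_cycleFactorsFinset_support_le hc h3
        rw [← h2, Equiv.Perm.mem_support] at h4
        exact absurd hy h4
      · have h1 : SameCycle σ _ _ := Quotient.exact h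
        have h2 := cycle_is_cycleOf
          (mem_cycleFactorsFinset_iff.mp hc).1.nonempty_support.choose_spec hc
        have h3 := cycle_is_cycleOf
          (mem_cycleFactorsFinset_iff.mp hd).1.nonempty_support.choose_spec hd
        exact congrArg Sum.inr (Subtype.ext (h2.trans (h1.cycleOf_eq.trans h3.symm)))
    · intro q
      induction q using Quotient.inductionOn with
      | _ x =>
      by_cases hx : σ x = x
      · exact ⟨Sum.inl ⟨x, hx⟩, rfl⟩
      · have hc : σ.cycleOf x ∈ σ.cycleFactorsFinset :=
          cycleOf_mem_cycleFactorsFinset_iff.mpr (Equiv.Perm.mem_support.mpr hx)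
        refine ⟨Sum.inr ⟨σ.cycleOf x, hc⟩, ?_⟩
        have h3 := (mem_cycleFactorsFinset_iff.mp hc).1.nonempty_support.choose_spec
        rw [mem_support_cycleOf_iff' hx] at h3
        exact Quotient.sound h3.symm
  rw [cyc, ← Nat.card_congr e, Nat.card_sum, cycleType_def, Multiset.card_map]
  congr 1
  rw [Nat.card_eq_fintype_card, Fintype.card_coe]
  rfl

theorem card_fixed_add_sum (σ : Perm α) :
    Nat.card {x // σ x = x} + σ.cycleType.sum = Nat.card α := by
  have h := card_fixedPoints σ
  have h2 := sum_cycleType_le σ
  have h3 : Nat.card {x // σ x = x} = Fintype.card (Function.fixedPoints σ) := by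
    rw [Nat.card_eq_fintype_card]
    exact Fintype.card_congr (Equiv.refl _)
  rw [h3, h, Nat.card_eq_fintype_card]
  omega

/-- The sign of a permutation in terms of its number of cycles. -/
theorem sign_eq_pow_cyc (σ : Perm α) : sign σ = (-1) ^ (Nat.card α + cyc σ) := by
  rw [sign_of_cycleType, cyc_eq, ← card_fixed_add_sum σ]
  have : Nat.card {x // σ x = x} + σ.cycleType.sum + (Nat.card {x // σ x = x} +
    Multiset.card σ.cycleType) = 2 * Nat.card {x // σ x = x} + (σ.cycleType.sum +
      Multiset.card σ.cycleType) := by ring
  rw [this, pow_add _ (2 * _), pow_mul, neg_one_sq, one_pow, one_mul]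

/-- Cycle count of a permutation of prime order. -/
theorem prime_mul_cyc (σ : Perm α) {p : ℕ} [Fact p.Prime] (h : σ ^ p = 1) :
    p * cyc σ = Nat.card α + (p - 1) * Nat.card {x // σ x = x} := by
  have h1 := cycleType_of_pow_prime_eq_one h
  have h2 : σ.cycleType.sum = Multiset.card σ.cycleType * p := by
    conv_lhs => rw [h1, Multiset.sum_replicate, smul_eq_mul]
  rw [← card_fixed_add_sum σ, cyc_eq, h2]
  obtain ⟨q, rfl⟩ : ∃ q, p = q + 1 := ⟨p - 1, by have := (Fact.out : p.Prime).pos; omega⟩
  simp only [Nat.add_sub_cancel]
  ring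

end Cyc

section Scott

variable {α : Type*} [Fintype α]

/-- The permutation operator `f ↦ f ∘ σ` on `α → ℚ`. -/
noncomputable def permOp (σ : Perm α) : (α → ℚ) →ₗ[ℚ] (α → ℚ) := LinearMap.funLeft ℚ ℚ σ

omit [Fintype α] in
theorem permOp_apply (σ : Perm α) (f : α → ℚ) (x : α) : permOp σ f x = f (σ x) := rfl

omit [Fintype α] in
theorem mem_ker_sub (σ : Perm α) (f : α → ℚ) :
    f ∈ LinearMap.ker (LinearMap.id - permOp σ) ↔ ∀ x, f (σ x) = f x := by
  rw [LinearMap.mem_ker, LinearMap.sub_apply, sub_eq_zero, funext_iff]
  exact forall_congr' fun x => eq_comm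

omit [Fintype α] in
theorem const_of_sameCycle {σ : Perm α} {β : Type*} {f : α → β} (h : ∀ x, f (σ x) = f x)
    {x y : α} (hxy : SameCycle σ x y) : f x = f y := by
  obtain ⟨n, rfl⟩ := hxy
  have h1 : ∀ (n : ℕ) (x : α), f ((σ ^ n) x) = f x := by
    intro n
    induction n with
    | zero => intro x; rfl
    | succ n ih => intro x; rw [pow_succ, Perm.mul_apply, ih, h]
  cases n with
  | ofNat n => exact (h1 n x).symm
  | negSucc n =>
    rw [zpow_negSucc]
    have h2 := h1 (n + 1) ((σ ^ (n + 1))⁻¹ x)
    rw [← Perm.mul_apply, mul_inv_cancel, Perm.one_apply] at h2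
    exact h2

theorem finrank_ker_sub (σ : Perm α) :
    Module.finrank ℚ (LinearMap.ker (LinearMap.id - permOp σ)) = cyc σ := by
  classical
  let e : LinearMap.ker (LinearMap.id - permOp σ) ≃ₗ[ℚ]
      (Quotient (SameCycle.setoid σ) → ℚ) :=
    { toFun := fun f => Quotient.lift f.1
        (fun x y hxy => const_of_sameCycle ((mem_ker_sub σ f.1).mp f.2) hxy)
      map_add' := fun f g => by
        ext q
        induction q using Quotient.inductionOn with
        | _ x => rfl
      map_smul' := fun c f => by
        ext q
        induction q using Quotient.inductionOn with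
        | _ x => rfl
      invFun := fun g => ⟨fun x => g (Quotient.mk _ x), (mem_ker_sub σ _).mpr fun x =>
        congrArg g (Quotient.sound (sameCycle_apply_left.mpr (SameCycle.refl σ x)))⟩
      left_inv := fun f => rfl
      right_inv := fun g => by
        ext q
        induction q using Quotient.inductionOn with
        | _ x => rfl }
  rw [LinearEquiv.finrank_eq e, Module.finrank_fintype_fun_eq_card, cyc,
    Nat.card_eq_fintype_card]

theorem finrank_range_sub (σ : Perm α) :
    Module.finrank ℚ (LinearMap.range (LinearMap.id - permOp σ)) + cyc σ = Nat.card α := by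
  rw [← finrank_ker_sub σ, LinearMap.finrank_range_add_finrank_ker,
    Module.finrank_fintype_fun_eq_card, Nat.card_eq_fintype_card]

omit [Fintype α] in
/-- An equivalence relation compatible with the generators of a transitive group is total. -/
theorem rel_of_transitive {a b : Perm α} (r : Setoid α) (ha : ∀ x, r.r x (a x))
    (hb : ∀ x, r.r x (b x))
    (htrans : ∀ x y, ∃ g ∈ Subgroup.closure {a, b}, g x = y) (x y : α) : r.r x y := by
  obtain ⟨g, hg, rfl⟩ := htrans x y
  clear htrans
  induction hg using Subgroup.closure_induction generalizing x with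
  | mem g hg =>
    rcases hg with rfl | hg
    · exact ha x
    · rw [Set.mem_singleton_iff] at hg
      rw [hg]
      exact hb x
  | one => exact r.refl x
  | mul g h _ _ hg hh => exact r.trans (hh x) (hg (h x))
  | inv g _ hg =>
    have := hg (g⁻¹ x)
    rw [← Perm.mul_apply, mul_inv_cancel, Perm.one_apply] at this
    exact r.symm this

theorem finrank_span_singleton_le_one {V : Type*} [AddCommGroup V] [Module ℚ V] (v : V) :
    Module.finrank ℚ (Submodule.span ℚ {v}) ≤ 1 := by
  simpa using finrank_span_le_card (R := ℚ) ({v} : Set V)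

/-- **Scott's inequality** for the permutation module (equivalently: nonnegativity of the genus
in the Riemann–Hurwitz formula). -/
theorem cyc_add_cyc_add_cyc_le [Nonempty α] (a b : Perm α)
    (htrans : ∀ x y, ∃ g ∈ Subgroup.closure {a, b}, g x = y) :
    cyc a + cyc b + cyc (a * b) ≤ Nat.card α + 2 := by
  classical
  set V := α → ℚ with hV
  set A' : V →ₗ[ℚ] V := LinearMap.id - permOp a with hA'
  set B' : V →ₗ[ℚ] V := LinearMap.id - permOp b with hB'
  set C' : V →ₗ[ℚ] V := LinearMap.id - permOp (a * b) with hC'
  let δ : (LinearMap.range A' × LinearMap.range B' × LinearMap.range C') →ₗ[ℚ] V :=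
    (LinearMap.range A').subtype.coprod
      ((LinearMap.range B').subtype.coprod (-(LinearMap.range C').subtype))
  let β : V →ₗ[ℚ] (LinearMap.range A' × LinearMap.range B' × LinearMap.range C') :=
    A'.rangeRestrict.prod ((B'.rangeRestrict ∘ₗ permOp a).prod C'.rangeRestrict)
  have hn : Module.finrank ℚ V = Nat.card α := by
    rw [Module.finrank_fintype_fun_eq_card, Nat.card_eq_fintype_card]
  -- the kernel of `β` consists of constants
  have hkerβ : Module.finrank ℚ (LinearMap.ker β) ≤ 1 := by
    have hle : LinearMap.ker β ≤ Submodule.span ℚ {(fun _ => 1 : V)} := by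
      intro f hf
      rw [LinearMap.mem_ker] at hf
      have h1 : A' f = 0 := congrArg Subtype.val (congrArg Prod.fst hf)
      have h2 : B' (permOp a f) = 0 := congrArg Subtype.val (congrArg (fun p => p.2.1) hf)
      have h3 : permOp a f = f := (sub_eq_zero.mp h1).symm
      rw [h3] at h2
      have ha := (mem_ker_sub a f).mp h1
      have hb := (mem_ker_sub b f).mp h2
      have hall : ∀ x y, f x = f y := fun x y =>
        rel_of_transitive (Setoid.ker f) (fun x => (ha x).symm) (fun x => (hb x).symm) htrans x y
      rw [Submodule.mem_span_singleton]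
      refine ⟨f (Classical.arbitrary α), ?_⟩
      ext x
      change f (Classical.arbitrary α) * 1 = f x
      rw [mul_one]
      exact hall _ _
    exact (Submodule.finrank_mono hle).trans (finrank_span_singleton_le_one _)
  -- `δ ∘ β = 0`
  have hδβ : LinearMap.range β ≤ LinearMap.ker δ := by
    rintro _ ⟨f, rfl⟩
    rw [LinearMap.mem_ker]
    ext x
    change (f x - f (a x)) + ((f (a x) - f (a (b x))) + -(f x - f (a (b x)))) = 0
    ring
  -- the range of `δ` has codimension at most one
  have hrange : Module.finrank ℚ V ≤ Module.finrank ℚ (LinearMap.range δ) + 1 := by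
    have hA : LinearMap.range A' ≤ LinearMap.range δ := by
      intro v hv
      exact ⟨(⟨v, hv⟩, 0, 0), by simp [δ]⟩
    have hB : LinearMap.range B' ≤ LinearMap.range δ := by
      intro v hv
      exact ⟨(0, ⟨v, hv⟩, 0), by simp [δ]⟩
    let r : Setoid α :=
      { r := fun x y => (Pi.single x 1 - Pi.single y 1 : V) ∈ LinearMap.range δ
        iseqv := ⟨fun x => by rw [sub_self]; exact Submodule.zero_mem _,
          fun {x y} h => by rw [← neg_sub]; exact Submodule.neg_mem _ h,
          fun {x y z} h1 h2 => by
            rw [← sub_add_sub_cancel]; exact Submodule.add_mem _ h1 h2⟩ }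
    have hr : ∀ x y, r.r x y := by
      refine rel_of_transitive r (fun x => ?_) (fun x => ?_) htrans
      · change (Pi.single x 1 - Pi.single (a x) 1 : V) ∈ LinearMap.range δ
        rw [← neg_sub]
        refine Submodule.neg_mem _ (hA ⟨Pi.single (a x) 1, ?_⟩)
        ext y
        change (Pi.single (a x) 1 : V) y - (Pi.single (a x) 1 : V) (a y) = _
        simp [Pi.single_apply]
      · change (Pi.single x 1 - Pi.single (b x) 1 : V) ∈ LinearMap.range δ
        rw [← neg_sub]
        refine Submodule.neg_mem _ (hB ⟨Pi.single (b x) 1, ?_⟩)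
        ext y
        change (Pi.single (b x) 1 : V) y - (Pi.single (b x) 1 : V) (b y) = _
        simp [Pi.single_apply]
    let x₀ : α := Classical.arbitrary α
    have htop : LinearMap.range δ ⊔ Submodule.span ℚ {(Pi.single x₀ 1 : V)} = ⊤ := by
      rw [eq_top_iff]
      intro f _
      have hf : f = ∑ x, f x • (Pi.single x 1 : V) := by
        ext y
        simp [Finset.sum_apply, Pi.single_apply]
      rw [hf]
      refine Submodule.sum_mem _ fun x _ => Submodule.smul_mem _ _ ?_
      have : (Pi.single x 1 : V) = (Pi.single x 1 - Pi.single x₀ 1) + Pi.single x₀ 1 := by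
        rw [sub_add_cancel]
      rw [this]
      exact Submodule.add_mem _ (Submodule.mem_sup_left (hr x x₀))
        (Submodule.mem_sup_right (Submodule.mem_span_singleton_self _))
    have h1 := Submodule.finrank_add_le_finrank_add_finrank (LinearMap.range δ)
      (Submodule.span ℚ {(Pi.single x₀ 1 : V)})
    rw [htop, finrank_top] at h1
    exact h1.trans (Nat.add_le_add_left (finrank_span_singleton_le_one _) _)
  have h1 := LinearMap.finrank_range_add_finrank_ker δ
  have h2 := LinearMap.finrank_range_add_finrank_ker β
  have h3 := Submodule.finrank_mono hδβ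
  rw [Module.finrank_prod, Module.finrank_prod] at h1
  have ha := finrank_range_sub a
  have hb := finrank_range_sub b
  have hc := finrank_range_sub (a * b)
  rw [hn] at h2 hrange
  change Module.finrank ℚ (LinearMap.range A') + _ = _ at ha
  change Module.finrank ℚ (LinearMap.range B') + _ = _ at hb
  change Module.finrank ℚ (LinearMap.range C') + _ = _ at hc
  omega

end Scott

end Fermat.Agent.Gamma0Comb
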