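import Mathlib
import Fermat.Agent.Gamma0Comb.Scott
import Fermat.Agent.Gamma0Comb.Cusps

set_option autoImplicit false

/-!
# The genus formula of `Γ₀(N)` takes values in the natural numbers
-/

open CongruenceSubgroup Matrix.SpecialLinearGroup Equiv.Perm Equiv
open scoped MatrixGroups

namespace Fermat.Agent.Gamma0Comb

variable {N : ℕ}

/-- The action of `SL(2, ℤ)` on the cosets as a permutation representation. -/
noncomputable abbrev rep (N : ℕ) : SL(2, ℤ) →* Perm (X N) := MulAction.toPermHom SL(2, ℤ) (X N)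

theorem rep_apply (g h : SL(2, ℤ)) : rep N g (h : X N) = ((g * h : SL(2, ℤ)) : X N) := rfl

theorem rep_apply' (g : SL(2, ℤ)) (q : X N) : rep N g q = g • q := rfl

theorem rep_neg_one : rep N (-1) = 1 := by
  ext q
  obtain ⟨g, rfl⟩ := QuotientGroup.mk_surjective q
  rw [rep_apply, Perm.one_apply, mk_eq_iff]
  have h : ∀ i j, (-1 * g) i j = - g i j := by
    intro i j
    rw [neg_one_mul, Matrix.SpecialLinearGroup.coe_neg, Matrix.neg_apply]
  rw [h, h]
  exact ⟨0, by ring⟩

theorem rep_S_sq : rep N ModularGroup.S ^ 2 = 1 := by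
  rw [← map_pow]
  have : ModularGroup.S ^ 2 = -1 := by
    apply Subtype.ext
    rw [pow_two, Matrix.SpecialLinearGroup.coe_mul, Matrix.SpecialLinearGroup.coe_neg,
      Matrix.SpecialLinearGroup.coe_one, ModularGroup.coe_S]
    decide
  rw [this, rep_neg_one]

theorem rep_ST_cube : rep N (ModularGroup.S * ModularGroup.T) ^ 3 = 1 := by
  rw [← map_pow]
  have : (ModularGroup.S * ModularGroup.T) ^ 3 = -1 := by
    apply Subtype.ext
    rw [pow_succ, pow_two, Matrix.SpecialLinearGroup.coe_mul, Matrix.SpecialLinearGroup.coe_mul,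
      Matrix.SpecialLinearGroup.coe_mul, Matrix.SpecialLinearGroup.coe_neg,
      Matrix.SpecialLinearGroup.coe_one, ModularGroup.coe_S, ModularGroup.coe_T]
    decide
  rw [this, rep_neg_one]

/-- `T = S * (S * T)` up to sign. -/
theorem rep_S_mul_rep_ST :
    rep N ModularGroup.S * rep N (ModularGroup.S * ModularGroup.T) = rep N ModularGroup.T := by
  rw [map_mul, ← mul_assoc, ← pow_two, rep_S_sq, one_mul]

theorem rep_transitive (x y : X N) :
    ∃ g ∈ Subgroup.closure {rep N ModularGroup.S, rep N (ModularGroup.S * ModularGroup.T)},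
      g x = y := by
  obtain ⟨g, rfl⟩ := QuotientGroup.mk_surjective x
  obtain ⟨h, rfl⟩ := QuotientGroup.mk_surjective y
  refine ⟨rep N (h * g⁻¹), ?_, ?_⟩
  · have h1 : (h * g⁻¹) ∈ Subgroup.closure {ModularGroup.S, ModularGroup.T} := by
      rw [SpecialLinearGroup.SL2Z_generators]
      trivial
    have h2 : Subgroup.closure {ModularGroup.S, ModularGroup.T} ≤
        (Subgroup.closure {rep N ModularGroup.S,
          rep N (ModularGroup.S * ModularGroup.T)}).comap (rep N) := by
      rw [Subgroup.closure_le]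
      rintro g (rfl | hg)
      · exact Subgroup.subset_closure (Or.inl rfl)
      · rw [Set.mem_singleton_iff] at hg
        subst hg
        change rep N ModularGroup.T ∈ Subgroup.closure _
        rw [← rep_S_mul_rep_ST]
        exact Subgroup.mul_mem _ (Subgroup.subset_closure (Or.inl rfl))
          (Subgroup.subset_closure (Or.inr rfl))
    exact h2 h1
  · change ((h * g⁻¹ * g : SL(2, ℤ)) : X N) = _
    rw [inv_mul_cancel_right]

section

variable (N) [NeZero N]

/-- Number of cycles of `S`. -/
theorem two_mul_cyc_S : 2 * cyc (rep N ModularGroup.S) =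
    ModularCurve.dedekindPsi N + ModularCurve.nuTwo N := by
  classical
  have := Fintype.ofFinite (X N)
  have h := prime_mul_cyc (p := 2) (rep N ModularGroup.S) rep_S_sq
  rw [natCard_coset] at h
  have h2 := natCard_fixed_S N
  rw [h, ← h2]
  rw [show 2 - 1 = 1 from rfl, one_mul]
  rfl

/-- Number of cycles of `S * T`. -/
theorem three_mul_cyc_ST : 3 * cyc (rep N (ModularGroup.S * ModularGroup.T)) =
    ModularCurve.dedekindPsi N + 2 * ModularCurve.nuThree N := by
  classical
  have := Fintype.ofFinite (X N)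
  have h := prime_mul_cyc (p := 3) (rep N (ModularGroup.S * ModularGroup.T)) rep_ST_cube
  rw [natCard_coset] at h
  have h2 := natCard_fixed_ST N
  rw [h, ← h2]
  rfl

omit [NeZero N] in
theorem sameCycle_T_iff (x y : X N) : SameCycle (rep N ModularGroup.T) x y ↔
    ((Quotient.mk'' x : CuspOrbits N) = Quotient.mk'' y) := by
  rw [Quotient.eq'', MulAction.orbitRel_apply, MulAction.mem_orbit_iff]
  constructor
  · intro h
    obtain ⟨n, hn⟩ := h.symm
    refine ⟨⟨ModularGroup.T ^ n, Subgroup.mem_zpowers_iff.mpr ⟨n, rfl⟩⟩, ?_⟩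
    rw [← map_zpow] at hn
    exact hn
  · rintro ⟨⟨t, ht⟩, h1⟩
    obtain ⟨n, rfl⟩ := Subgroup.mem_zpowers_iff.mp ht
    refine SameCycle.symm ⟨n, ?_⟩
    rw [← map_zpow]
    exact h1

/-- Number of cycles of `T`. -/
theorem cyc_T : cyc (rep N ModularGroup.T) = ModularCurve.cuspCount N := by
  rw [← natCard_cuspOrbits, cyc]
  refine Nat.card_congr (_root_.Quotient.congrRight fun x y => ?_)
  have := sameCycle_T_iff N x y
  rw [Quotient.eq''] at this
  exact this

/-- Scott's inequality for `Γ₀(N)`. -/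
theorem cyc_sum_le : cyc (rep N ModularGroup.S) + cyc (rep N (ModularGroup.S * ModularGroup.T)) +
    ModularCurve.cuspCount N ≤ ModularCurve.dedekindPsi N + 2 := by
  classical
  have := Fintype.ofFinite (X N)
  have : Nonempty (X N) := ⟨((1 : SL(2, ℤ)) : X N)⟩
  have h := cyc_add_cyc_add_cyc_le _ _ (rep_transitive (N := N))
  rw [rep_S_mul_rep_ST, cyc_T, natCard_coset] at h
  exact h

/-- Parity of the cycle counts. -/
theorem even_cyc_sum : Even (ModularCurve.dedekindPsi N + (cyc (rep N ModularGroup.S) +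
    cyc (rep N (ModularGroup.S * ModularGroup.T)) + ModularCurve.cuspCount N)) := by
  classical
  have := Fintype.ofFinite (X N)
  have h1 := sign_eq_pow_cyc (rep N ModularGroup.S)
  have h2 := sign_eq_pow_cyc (rep N (ModularGroup.S * ModularGroup.T))
  have h3 := sign_eq_pow_cyc (rep N ModularGroup.T)
  rw [← rep_S_mul_rep_ST, Perm.sign_mul, h1, h2, rep_S_mul_rep_ST, cyc_T, natCard_coset, ← pow_add] at h3
  have h4 : ((-1 : ℤˣ)) ^ (ModularCurve.dedekindPsi N + (cyc (rep N ModularGroup.S) +
    cyc (rep N (ModularGroup.S * ModularGroup.T)) + ModularCurve.cuspCount N)) = 1 := by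
    have h5 : ((-1 : ℤˣ)) ^ (ModularCurve.dedekindPsi N + (cyc (rep N ModularGroup.S) +
      cyc (rep N (ModularGroup.S * ModularGroup.T)) + ModularCurve.cuspCount N)) *
      (-1) ^ (2 * ModularCurve.dedekindPsi N) = (-1) ^ (ModularCurve.dedekindPsi N +
        cyc (rep N ModularGroup.S) + (ModularCurve.dedekindPsi N +
          cyc (rep N (ModularGroup.S * ModularGroup.T)))) *
            (-1) ^ (ModularCurve.dedekindPsi N + ModularCurve.cuspCount N) := by
      rw [← pow_add, ← pow_add]
      congr 1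
      ring
    rw [h3, pow_mul, neg_one_sq, one_pow, mul_one, ← pow_add, ← two_mul, pow_mul, neg_one_sq,
      one_pow] at h5
    exact h5
  by_contra hodd
  rw [Nat.not_even_iff_odd] at hodd
  rw [hodd.neg_one_pow] at h4
  exact absurd h4 (by decide)

/-- (C5) The genus formula takes values in the natural numbers, with Riemann–Hurwitz relation
`2 g + #cycles(S) + #cycles(S T) + #cusps = ψ(N) + 2`. -/
theorem exists_genus : ∃ g : ℕ, (g : ℚ) = ModularCurve.genusFormula N ∧
    2 * g + (cyc (rep N ModularGroup.S) + cyc (rep N (ModularGroup.S * ModularGroup.T)) +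
      ModularCurve.cuspCount N) = ModularCurve.dedekindPsi N + 2 := by
  have hle := cyc_sum_le N
  obtain ⟨k, hk⟩ := even_cyc_sum N
  obtain ⟨g, hg⟩ : ∃ g, 2 * g + (cyc (rep N ModularGroup.S) +
      cyc (rep N (ModularGroup.S * ModularGroup.T)) +
      ModularCurve.cuspCount N) = ModularCurve.dedekindPsi N + 2 := by
    refine ⟨ModularCurve.dedekindPsi N + 1 - k, ?_⟩
    omega
  refine ⟨g, ?_, hg⟩
  have h2 : (2 * cyc (rep N ModularGroup.S) : ℚ) = ModularCurve.dedekindPsi N +
    ModularCurve.nuTwo N := by exact_mod_cast two_mul_cyc_S N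
  have h3 : (3 * cyc (rep N (ModularGroup.S * ModularGroup.T)) : ℚ) =
    ModularCurve.dedekindPsi N + 2 * ModularCurve.nuThree N := by
      exact_mod_cast three_mul_cyc_ST N
  have h4 : (2 * g + (cyc (rep N ModularGroup.S) +
      cyc (rep N (ModularGroup.S * ModularGroup.T)) +
      ModularCurve.cuspCount N) : ℚ) = ModularCurve.dedekindPsi N + 2 := by exact_mod_cast hg
  rw [ModularCurve.genusFormula]
  linear_combination (1 / 2 : ℚ) * h4 - (1 / 4 : ℚ) * h2 - (1 / 6 : ℚ) * h3

end

end Fermat.Agent.Gamma0Comb
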